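/-
S15, block A, part A-RED, node RHO (helper257): the abstract counting argument.

`ρ : Div(X) → Div(Y)` additive, every point has image of the same mass `d > 0`; two classes of points `I`, `Z`
whose images have disjoint supports.  If `ρ E = ρ (c) + n ρ (c')` with `E ≥ 0` supported in `I ∪ Z`, `c ∈ I`,
`c' ∈ Z`, then the `I`-part of `E` is a single point `P`, and `ρ (P) = ρ (c)`.
-/
import Fermat.Agent.S15.A.Red.Defs

set_option autoImplicit false

noncomputable section

namespace Fermat.Agent.S15.A.Red.Alt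

variable {X Y : Type*}

theorem mass_single (y : Y) (a : ℤ) : mass (Finsupp.single y a) = a := by
  simp [mass]

theorem mass_eq_sum (F : Y →₀ ℤ) : mass F = F.sum fun _ a => a := by
  simp only [mass, Finsupp.liftAddHom_apply]
  rfl

theorem eq_zero_of_mass_eq_zero {F : Y →₀ ℤ} (h0 : ∀ y, 0 ≤ F y) (h : mass F = 0) : F = 0 := by
  rw [mass_eq_sum, Finsupp.sum, Finset.sum_eq_zero_iff_of_nonneg fun y _ => h0 y] at h
  ext y
  by_cases hy : y ∈ F.support
  · exact h y hy
  · simpa using hy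

theorem mass_nonneg {F : Y →₀ ℤ} (h0 : ∀ y, 0 ≤ F y) : 0 ≤ mass F := by
  rw [mass_eq_sum]
  exact Finset.sum_nonneg fun y _ => h0 y

theorem map_single_eq_smul (ρ : (X →₀ ℤ) →+ (Y →₀ ℤ)) (v : X) (a : ℤ) :
    ρ (Finsupp.single v a) = a • ρ (Finsupp.single v 1) := by
  rw [← map_zsmul, Finsupp.smul_single, smul_eq_mul, mul_one]

theorem map_apply_eq_zero (ρ : (X →₀ ℤ) →+ (Y →₀ ℤ)) (y : Y) (F : X →₀ ℤ)
    (h : ∀ v, F v ≠ 0 → ρ (Finsupp.single v 1) y = 0) : ρ F y = 0 := by
  conv_lhs => rw [← Finsupp.sum_single F]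
  rw [Finsupp.sum, map_sum, Finsupp.finsetSum_apply]
  refine Finset.sum_eq_zero fun v hv => ?_
  rw [map_single_eq_smul, Finsupp.smul_apply, h v (Finsupp.mem_support_iff.1 hv), smul_zero]

theorem mass_map (ρ : (X →₀ ℤ) →+ (Y →₀ ℤ)) {d : ℤ}
    (hmass : ∀ P, mass (ρ (Finsupp.single P 1)) = d) (F : X →₀ ℤ) :
    mass (ρ F) = d * mass F := by
  induction F using Finsupp.induction_linear with
  | zero => simp
  | add f g hf hg => rw [map_add, map_add, map_add, hf, hg, mul_add]
  | single v a => rw [map_single_eq_smul, map_zsmul, hmass, mass_single, smul_eq_mul, mul_comm]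

open Classical in
theorem rho_abs (ρ : (X →₀ ℤ) →+ (Y →₀ ℤ)) (I Z : X → Prop) {d : ℤ} (hd : 0 < d)
    (hmass : ∀ P, mass (ρ (Finsupp.single P 1)) = d)
    (sep : ∀ P P' y, I P → Z P' → ρ (Finsupp.single P 1) y ≠ 0 → ρ (Finsupp.single P' 1) y = 0)
    (E : X →₀ ℤ) (hE : ∀ v, 0 ≤ E v) (hsupp : ∀ v, E v ≠ 0 → I v ∨ Z v)
    (c c' : X) (hc : I c) (hc' : Z c') (n : ℤ)
    (h0 : ρ E = ρ (Finsupp.single c 1) + n • ρ (Finsupp.single c' 1))
    (P : X) (hP : I P) (hPE : E P ≠ 0) : ρ (Finsupp.single P 1) = ρ (Finsupp.single c 1) := by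
  set EI := E.filter I with hEI
  set EZ := E.filter (fun v => ¬ I v) with hEZ
  have hsum : EI + EZ = E := Finsupp.filter_add_filter_not E I
  have hEIv : ∀ v, EI v ≠ 0 → I v := by
    intro v hv
    by_contra hI
    exact hv (Finsupp.filter_apply_neg _ _ hI)
  have hEZv : ∀ v, EZ v ≠ 0 → Z v := by
    intro v hv
    by_cases hI : I v
    · exact absurd (Finsupp.filter_apply_neg (fun v => ¬ I v) E (not_not.2 hI)) hv
    · have h1 : EZ v = E v := Finsupp.filter_apply_pos (fun v => ¬ I v) E hI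
      exact (hsupp v (h1 ▸ hv)).resolve_left hI
  -- the `I`-part
  have key : ρ EI = ρ (Finsupp.single c 1) := by
    ext y
    by_cases hy : ∃ P0, I P0 ∧ ρ (Finsupp.single P0 1) y ≠ 0
    · obtain ⟨P0, hP0, hy0⟩ := hy
      have h1 : ρ EZ y = 0 := map_apply_eq_zero ρ y EZ fun v hv => sep P0 v y hP0 (hEZv v hv) hy0
      have h2 : ρ (Finsupp.single c' 1) y = 0 := sep P0 c' y hP0 hc' hy0
      have h3 := DFunLike.congr_fun h0 y
      rw [← hsum, map_add, Finsupp.add_apply, Finsupp.add_apply, Finsupp.smul_apply, h1, h2,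
        smul_zero, add_zero, add_zero] at h3
      exact h3
    · push Not at hy
      rw [hy c hc]
      exact map_apply_eq_zero ρ y EI fun v hv => hy v (hEIv v hv)
  have hm : mass EI = 1 := by
    have h1 := mass_map ρ hmass EI
    rw [key, hmass] at h1
    have h2 : d * (mass EI - 1) = 0 := by linarith
    rcases mul_eq_zero.1 h2 with h3 | h3
    · omega
    · omega
  have hEI0 : ∀ v, 0 ≤ EI v := by
    intro v
    by_cases hI : I v
    · rw [hEI, Finsupp.filter_apply_pos _ _ hI]; exact hE v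
    · rw [hEI, Finsupp.filter_apply_neg _ _ hI]
  have hEIP : EI P = E P := Finsupp.filter_apply_pos _ _ hP
  have hdec : Finsupp.single P (EI P) + EI.erase P = EI := Finsupp.single_add_erase P EI
  have her0 : ∀ v, 0 ≤ EI.erase P v := by
    intro v
    by_cases hv : v = P
    · rw [hv, Finsupp.erase_same]
    · rw [Finsupp.erase_ne hv]; exact hEI0 v
  have hm2 : EI P + mass (EI.erase P) = 1 := by
    rw [← hm, ← hdec, map_add, mass_single]
    simp
  have h1P : 1 ≤ EI P := by
    have := hE P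
    rw [hEIP]
    omega
  have hme := mass_nonneg her0
  have her : EI.erase P = 0 := eq_zero_of_mass_eq_zero her0 (by omega)
  have hEIP1 : EI P = 1 := by omega
  rw [her, add_zero, hEIP1] at hdec
  rw [hdec, key]

end Fermat.Agent.S15.A.Red.Alt

end
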