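/-
S15, block A, part A-RED, node RHO (helper257): places near the same cusp have the same reduction.

`P` near `∞`, not a cusp, `a = j(P) ∉ A`: `e = 1 - j / a` is `IsOne`, `div e = Z_a - (∞) - N (0)`, every point of
`Z_a` is near `∞` or near `0` (Newton polygon of the modular equation), so `ρ (Z_a) = ρ (∞) + N ρ (0)` and the
counting argument `rho_abs` gives `ρ (P) = ρ (∞)`.  Near `0`: the same with `j_N`.
-/
import Fermat.Agent.S15.A.Red.Alt.RhoAbs
import Fermat.Agent.S15.A.NearIff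
import Fermat.Agent.S15.A.Hecke.NP2
import Fermat.Agent.S15.A.Hecke.ModEqJ
import Fermat.Agent.S37.HeckeInputs.Main

set_option autoImplicit false

noncomputable section

namespace Fermat.Agent.S15.A.Red.Alt

open ModularCurve AlgebraicCurve Fermat.Agent.S24 Fermat.Agent.S27 Fermat.Agent.S37

variable {N : ℕ} [NeZero N] {A : ValuationSubring Kbar}

/-- `j(q^d)` has coefficients in `A`. -/
theorem Jser_eq_coeffMap (A : ValuationSubring Kbar) (d : ℕ) [NeZero d] :
    Jser d = coeffMap A.subtype (qExpand A d (jqModC A)) := by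
  rw [coeffMap_qExpand, coeffMap_jqModC]
  exact Fermat.Agent.Lib.ModEq.Js_eq_qExpand_jqModC Kbar d

omit [NeZero N] in
/-- `1 - c f` is congruent to `1` if `f` has integral coefficients and `c ∈ 𝔪_A`. -/
theorem isOne_one_sub {f : FN N} {G : LaurentSeries A}
    (hG : (f : LaurentSeries Kbar) = coeffMap A.subtype G) {c : Kbar} (hc : c ∈ A.nonunits) :
    II.IsOne A N (1 - algebraMap Kbar (FN N) c * f) := by
  obtain ⟨hcA, hcm⟩ := A.mem_nonunits_iff_exists_mem_maximalIdeal.1 hc
  set P : LaurentSeries A := 1 - HahnSeries.single 0 (⟨c, hcA⟩ : A) * G with hPdef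
  have hP : coeffMap A.subtype P =
      ((1 - algebraMap Kbar (FN N) c * f : FN N) : LaurentSeries Kbar) := by
    rw [hPdef, map_sub, map_one, map_mul, coeffMap_single, ← hG]
    show _ = 1 - algebraMap Kbar (LaurentSeries Kbar) c * (f : LaurentSeries Kbar)
    rw [algebraMap_laurentSeries_eq_single]
    rfl
  have h1 : coeffMap A.subtype (1 : LaurentSeries A) = ((1 : FN N) : LaurentSeries Kbar) := by
    rw [map_one]
    rfl
  have hP' : coeffMap A.subtype P ∈ modularFunctionFieldBar N := by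
    rw [hP]
    exact (1 - algebraMap Kbar (FN N) c * f : FN N).2
  have h1' : coeffMap A.subtype (1 : LaurentSeries A) ∈ modularFunctionFieldBar N := by
    rw [h1]
    exact (1 : FN N).2
  refine ⟨1, P, 1, hP', h1', one_ne_zero, ?_, ?_, ?_⟩
  · show coeffMap (IsLocalRing.residue A) P = coeffMap (IsLocalRing.residue A) 1
    rw [hPdef, map_sub, map_mul, coeffMap_single, (IsLocalRing.residue_eq_zero_iff _).2 hcm,
      HahnSeries.single_eq_zero, zero_mul, sub_zero]
  · show coeffMap (IsLocalRing.residue A) 1 ≠ 0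
    rw [map_one]
    exact one_ne_zero
  · rw [map_one, one_mul]
    have e1 : (⟨coeffMap A.subtype P, hP'⟩ : modularFunctionFieldBar N) =
        1 - algebraMap Kbar (FN N) c * f := Subtype.ext hP
    have e2 : (⟨coeffMap A.subtype (1 : LaurentSeries A), h1'⟩ : modularFunctionFieldBar N) = 1 :=
      Subtype.ext h1
    rw [e1, e2, div_one]

omit [NeZero N] in
theorem rho_pt_self (v : Place Kbar (FN N)) : pt v v = 1 := Finsupp.single_eq_same

omit [NeZero N] in
theorem rho_pt_ne {v w : Place Kbar (FN N)} (h : w ≠ v) : pt v w = 0 :=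
  Finsupp.single_eq_of_ne h

/-- the divisor of zeros of `1 - J / a`, for a function `J` with poles at `c`, `c'` only. -/
theorem exists_zero_divisor {J : FN N} {c c' : Place Kbar (FN N)} {m1 m2 : ℤ} (hne : c ≠ c')
    (h1 : c.ord J = -m1) (h2 : c'.ord J = -m2) (hm1 : 0 < m1) (hm2 : 0 < m2)
    (only : ∀ v : Place Kbar (FN N), v.ord J < 0 → v = c ∨ v = c') {a : Kbar} (ha : a ≠ 0) :
    ∃ D E : Divisor Kbar (FN N),
      (∀ v, D v = v.ord (1 - algebraMap Kbar (FN N) a⁻¹ * J)) ∧
      E = D + m1 • pt c + m2 • pt c' ∧ (∀ v, 0 ≤ E v) ∧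
      (∀ v, E v ≠ 0 ↔ 0 ≤ v.ord J ∧ val v J = a) := by
  set g : FN N := J - algebraMap Kbar (FN N) a with hg
  have hJ0 : J ≠ 0 := by
    rintro rfl
    rw [Place.ord_zero] at h1
    omega
  have hneg : ∀ v : Place Kbar (FN N), v.ord J < 0 → v.ord g = v.ord J := by
    intro v hv
    rw [hg, sub_eq_add_neg]
    apply FF.ord_add_eq_of_lt v hJ0
    rw [FF.ord_neg, FF.ord_algebraMap]
    exact hv
  have hg0 : g ≠ 0 := by
    intro h
    have := hneg c (by omega)
    rw [h, Place.ord_zero] at this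
    omega
  have he : (1 - algebraMap Kbar (FN N) a⁻¹ * J) = algebraMap Kbar (FN N) (-a⁻¹) * g := by
    rw [hg, mul_sub, ← map_mul, neg_mul, inv_mul_cancel₀ ha, map_neg, map_neg, map_one]
    ring
  have hord : ∀ v : Place Kbar (FN N), v.ord (1 - algebraMap Kbar (FN N) a⁻¹ * J) = v.ord g := by
    intro v
    rw [he, v.ord_mul ((map_ne_zero _).2 (neg_ne_zero.2 (inv_ne_zero ha))) hg0,
      FF.ord_algebraMap, zero_add]
  have he0 : (1 - algebraMap Kbar (FN N) a⁻¹ * J) ≠ 0 := by
    rw [he]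
    exact mul_ne_zero ((map_ne_zero _).2 (neg_ne_zero.2 (inv_ne_zero ha))) hg0
  obtain ⟨D, hD, -⟩ := HasPrincipalDivisors.exists_divisor (K := Kbar) _ he0
  refine ⟨D, D + m1 • pt c + m2 • pt c', hD, rfl, ?_⟩
  have hE : ∀ v, (D + m1 • pt c + m2 • pt c') v = v.ord g + m1 * pt c v + m2 * pt c' v := by
    intro v
    rw [Finsupp.add_apply, Finsupp.add_apply, Finsupp.smul_apply, Finsupp.smul_apply, hD, hord,
      smul_eq_mul, smul_eq_mul]
  have hc : (D + m1 • pt c + m2 • pt c') c = 0 := by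
    rw [hE, hneg c (by omega), h1, rho_pt_self, rho_pt_ne hne]
    ring
  have hc' : (D + m1 • pt c + m2 • pt c') c' = 0 := by
    rw [hE, hneg c' (by omega), h2, rho_pt_self, rho_pt_ne hne.symm]
    ring
  have hother : ∀ v, v ≠ c → v ≠ c' → 0 ≤ v.ord J ∧ (D + m1 • pt c + m2 • pt c') v = v.ord g := by
    intro v hv hv'
    refine ⟨?_, ?_⟩
    · by_contra h
      rcases only v (not_le.1 h) with h | h
      · exact hv h
      · exact hv' h
    · rw [hE, rho_pt_ne hv, rho_pt_ne hv']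
      ring
  have hnn : ∀ v : Place Kbar (FN N), 0 ≤ v.ord J → 0 ≤ v.ord g := fun v hv =>
    ord_sub_nonneg hv (ord_algebraMap_nonneg a)
  refine ⟨?_, ?_⟩
  · intro v
    by_cases hv : v = c
    · rw [hv, hc]
    by_cases hv' : v = c'
    · rw [hv', hc']
    obtain ⟨h3, h4⟩ := hother v hv hv'
    rw [h4]
    exact hnn v h3
  · intro v
    by_cases hv : v = c
    · rw [hv, hc]
      constructor
      · intro h; exact absurd rfl h
      · rintro ⟨h, -⟩; omega
    by_cases hv' : v = c'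
    · rw [hv', hc']
      constructor
      · intro h; exact absurd rfl h
      · rintro ⟨h, -⟩; omega
    obtain ⟨h3, h4⟩ := hother v hv hv'
    rw [h4]
    constructor
    · intro h
      refine ⟨h3, val_eq_of_van (Or.inr ?_)⟩
      show 0 < v.ord g
      have := hnn v h3
      omega
    · rintro ⟨-, h⟩
      have h5 := van_sub_val h3
      rw [h] at h5
      rcases h5 with h5 | h5
      · exact absurd h5 hg0
      · exact h5.ne'

/-- the core of RHO, for a function `J` with a simple pole at `c`. -/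
theorem rho_eq_of_data {Y : Type*} {ρ : Divisor Kbar (FN N) →+ (Y →₀ ℤ)} (hρ : Geo N A ρ)
    (I Z : Place Kbar (FN N) → Prop)
    (sep : ∀ P P' y, I P → Z P' → ρ (pt P) y ≠ 0 → ρ (pt P') y = 0)
    {J : FN N} {G : LaurentSeries A} (hG : (J : LaurentSeries Kbar) = coeffMap A.subtype G)
    {c c' : Place Kbar (FN N)} (hne : c ≠ c') (hc : I c) (hc' : Z c') {m2 : ℤ}
    (h1 : c.ord J = -1) (h2 : c'.ord J = -m2) (hm2 : 0 < m2)
    (only : ∀ v : Place Kbar (FN N), v.ord J < 0 → v = c ∨ v = c')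
    (hIZ : ∀ v : Place Kbar (FN N), 0 ≤ v.ord J → 1 < A.valuation (val v J) → I v ∨ Z v)
    {P : Place Kbar (FN N)} (hP : I P) (hPJ : 0 ≤ P.ord J) (hPa : 1 < A.valuation (val P J)) :
    ρ (pt P) = ρ (pt c) := by
  set a := val P J with ha
  have ha0 : a ≠ 0 := by
    intro h
    rw [h, map_zero] at hPa
    exact absurd hPa (not_lt.2 zero_le_one)
  have hinv : a⁻¹ ∈ A.nonunits := by
    rw [ValuationSubring.mem_nonunits_iff, map_inv₀]
    exact inv_lt_one_of_one_lt₀ hPa
  obtain ⟨D, E, hD, hE, hE0, hEiff⟩ :=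
    exists_zero_divisor hne h1 h2 one_pos hm2 only ha0
  have hD0 : ρ D = 0 := hρ.one _ D (isOne_one_sub hG hinv) hD
  obtain ⟨d, hd, hmass⟩ := hρ.mass
  refine rho_abs ρ I Z hd hmass sep E hE0 ?_ c c' hc hc' m2 ?_ P hP ((hEiff P).2 ⟨hPJ, rfl⟩)
  · intro v hv
    obtain ⟨h3, h4⟩ := (hEiff v).1 hv
    exact hIZ v h3 (by rw [h4]; exact hPa)
  · rw [hE, map_add, map_add, hD0, zero_add, one_smul, map_zsmul]
    rfl

variable {z : Place Kbar (FN N)}

theorem modEq_j_jN (hN : N.Prime) : ModEq N (phiC N hN) (jF N) (jN N) :=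
  modEq_JF N hN N 1 N (mul_one N).symm (one_dvd N) dvd_rfl

theorem cInf_ne (hN : N.Prime) (hz : IsCusp0 N z) : cInf N ≠ z := by
  intro h
  have h1 := hz.ord_j
  rw [← h, ord_cInf_jF] at h1
  have : (2 : ℤ) ≤ N := by exact_mod_cast hN.two_le
  omega

/-- a pole of `j_N` is a pole of `j`. -/
theorem ord_jF_neg_of_ord_jN_neg (hN : N.Prime) {v : Place Kbar (FN N)} (h : v.ord (jN N) < 0) :
    v.ord (jF N) < 0 := by
  by_contra hcon
  have h1 : 1 < v.toValuationSubring.valuation (jN N) := by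
    rw [one_lt_valuation_iff, FF.mem_iff_ord_nonneg]
    omega
  have h2 := (modEq_j_jN hN).symm.one_lt h1
  rw [one_lt_valuation_iff, FF.mem_iff_ord_nonneg] at h2
  exact h2 (not_lt.1 hcon)

theorem rho_nearInf {Y : Type*} {ρ : Divisor Kbar (FN N) →+ (Y →₀ ℤ)} (hρ : Geo N A ρ)
    (hN : N.Prime) (hz : IsCusp0 N z) {P : Place Kbar (FN N)} (hP : NearInf N A P) :
    ρ (pt P) = ρ (pt (cInf N)) := by
  have hN0 : (0 : ℤ) < N := by exact_mod_cast hN.pos
  by_cases hPj : P.ord (jF N) < 0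
  · rcases hz.only P hPj with h | h
    · rw [h]
    · rw [h] at hP
      exact absurd hP (not_vInf_of_vZero (hz.nearZero hN.two_le A))
  rw [not_lt] at hPj
  refine rho_eq_of_data hρ (NearInf N A) (NearZero N A) hρ.sep (J := jF N)
    (Jser_eq_coeffMap A 1) (cInf_ne hN hz) (nearInf_cInf hN.two_le A) (hz.nearZero hN.two_le A)
    ord_cInf_jF hz.ord_j hN0 hz.only ?_ hP hPj ((one_lt_comp_iff hPj).1 hP.1)
  intro v hv hva
  exact (modEq_j_jN hN).vInf_or_vZero hN.two_le (phiC_self N hN) ((one_lt_comp_iff hv).2 hva)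

theorem rho_nearZero {Y : Type*} {ρ : Divisor Kbar (FN N) →+ (Y →₀ ℤ)} (hρ : Geo N A ρ)
    (hN : N.Prime) (hz : IsCusp0 N z) {P : Place Kbar (FN N)} (hP : NearZero N A P) :
    ρ (pt P) = ρ (pt z) := by
  have hN0 : (0 : ℤ) < N := by exact_mod_cast hN.pos
  by_cases hPj : P.ord (jF N) < 0
  · rcases hz.only P hPj with h | h
    · rw [h] at hP
      exact absurd (nearInf_cInf hN.two_le A) (not_vInf_of_vZero hP)
    · rw [h]
  rw [not_lt] at hPj
  have hsymm := (modEq_j_jN hN).symm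
  have hcs : (fun a b => phiC N hN b a) N N = -1 := phiC_self N hN
  -- `j_N` is regular at `P`
  have hPjN : 0 ≤ P.ord (jN N) := by
    by_contra hcon
    rw [not_le] at hcon
    have h1 : (compRing A P).valuation (jF N) < (compRing A P).valuation (jN N) := by
      rw [valuation_lt_iff jN_ne_zero]
      apply mem_nonunits_of_ord_pos
      rw [div_eq_mul_inv, P.ord_mul jF_ne_zero (inv_ne_zero jN_ne_zero), P.ord_inv]
      omega
    exact lt_asymm h1 hP.2
  have hPV : 1 < (compRing A P).valuation (jN N) := (modEq_j_jN hN).one_lt hP.1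
  refine rho_eq_of_data hρ (NearZero N A) (NearInf N A)
    (fun P P' y h h' hy => by
      by_contra hy'
      exact hy (hρ.sep P' P y h' h hy')) (J := jN N)
    (Jser_eq_coeffMap A N) (cInf_ne hN hz).symm (hz.nearZero hN.two_le A)
    (nearInf_cInf hN.two_le A) hz.ord_jN ord_cInf_jN hN0 ?_ ?_ hP hPjN
    ((one_lt_comp_iff hPjN).1 hPV)
  · intro v hv
    exact (hz.only v (ord_jF_neg_of_ord_jN_neg hN hv)).symm
  · intro v hv hva
    have h1 : 1 < (compRing A v).valuation (jN N) := (one_lt_comp_iff hv).2 hva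
    have h2 : 1 < (compRing A v).valuation (jF N) := hsymm.one_lt h1
    have h3 : VInf (compRing A v) (jN N) (jF N) ∨ VZero (compRing A v) (jN N) (jF N) :=
      ModEq.vInf_or_vZero (c := fun a b => phiC N hN b a) hN.two_le hcs hsymm h1
    show NearZero N A v ∨ NearInf N A v
    rcases h3 with h | h
    · exact Or.inl (show VZero (compRing A v) (jF N) (jN N) from ⟨h2, h.2⟩)
    · exact Or.inr (show VInf (compRing A v) (jF N) (jN N) from ⟨h2, h.2⟩)

/-- **RHO**: places near the same cusp have the same reduction. -/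
theorem rho_same {Y : Type*} {ρ : Divisor Kbar (FN N) →+ (Y →₀ ℤ)} (hρ : Geo N A ρ)
    (hN : N.Prime) (hz : IsCusp0 N z) {P P' : Place Kbar (FN N)} (h : Same N A P P') :
    ρ (pt P) = ρ (pt P') := by
  rcases h with ⟨h1, h2⟩ | ⟨h1, h2⟩
  · rw [rho_nearInf hρ hN hz h1, rho_nearInf hρ hN hz h2]
  · rw [rho_nearZero hρ hN hz h1, rho_nearZero hρ hN hz h2]

/-- `ρ` kills the divisors generated by `(P) - (P')`, `P`, `P'` near the same cusp. -/
theorem rho_eq_zero_of_mem_ND {Y : Type*} {ρ : Divisor Kbar (FN N) →+ (Y →₀ ℤ)} (hρ : Geo N A ρ)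
    (hN : N.Prime) (hz : IsCusp0 N z) {D : Divisor Kbar (FN N)} (hD : D ∈ ND N A) : ρ D = 0 := by
  induction hD using AddSubgroup.closure_induction with
  | mem D hD =>
    obtain ⟨P, P', h, rfl⟩ := hD
    rw [map_sub, rho_same hρ hN hz h, sub_self]
  | zero => exact map_zero ρ
  | add D E _ _ hD hE => rw [map_add, hD, hE, add_zero]
  | neg D _ hD => rw [map_neg, hD, neg_zero]

end Fermat.Agent.S15.A.Red.Alt

end
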